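/-
S36 / cell NEAT-LEVEL (helper442): descent of the Carayol engine from an auxiliary level
`N r q` to the level `N q`  (decision D2 of the S36 board: prove the engine at a NEAT level,
`r ≡ 11 mod 12`, and return by pull-back / push-forward).

For primes `q ≠ r` and ANY subgroup `H ≤ G_ℚ` (in the application: an inertia group at `q`):

  if the `H`-fixed `p`-power torsion of the `q`-new part of `J₀(N r q)` is bounded
  (killed by `p ^ k`), then the `H`-fixed `p`-power torsion of the `q`-new part of `J₀(N q)`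
  is bounded (killed by `p ^ (k + d)`, `d = [F_{N q r} : V_r F_{N q}]`).

`q`-new = `S35.H155.IsQNew` = killed by the two degeneracy push-forwards `α_*`, `β_*` of level
`q` (for all Galois conjugates, as in the engine statement).  No hypothesis on `N`, `p`:
`q ∣ N`, `r ∣ N`, `p = r`, `p = 2` are all allowed.

Proof.  `π^* := β_r^* : J₀(N q) → J₀(N r q)` (pull-back along `V_r`) is Galois-equivariant,
satisfies `π^* x = 0 ⇒ d • x = 0`, and base change in the two mixed squares
(helper801's `normCompat_bar`, `normCompat_beta_bar` + helper818's `pullback_pushforward_eq`)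
gives  `α_{q,*} π^* = β_r^* α_{q,*}`  and  `β_{q,*} π^* = β_r^* β_{q,*}`.
-/
import Fermat.Agent.S35.H155.B2Geom
import Fermat.Agent.S37.H818.PushPull
import Fermat.Agent.S37.H818.GaloisEquiv

set_option autoImplicit false
set_option linter.style.haveILetI false

noncomputable section

namespace Fermat.Agent.S36.H442

open AlgebraicCurve ModularCurve Fermat.Agent.S37.H818 Fermat.Agent.S29.H801
  Fermat.Agent.Ribet.H801 Fermat.Agent.Lib.HI

/-! ### Generic: base change on `Pic0` -/

section Generic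

variable {K F F₁ G G₁ : Type*} [Field K] [Field F] [Field F₁] [Field G] [Field G₁]
  [Algebra K F] [Algebra K F₁] [Algebra K G] [Algebra K G₁]
variable (a : F →ₐ[K] F₁) (i : F →ₐ[K] G) (a' : G →ₐ[K] G₁) (i₁ : F₁ →ₐ[K] G₁)
  (ha : a.toRingHom.IsIntegral) (hi : i.toRingHom.IsIntegral)
  (ha' : a'.toRingHom.IsIntegral) (hi₁ : i₁.toRingHom.IsIntegral)
  (hsq : i₁.comp a = a'.comp i)
variable [HasPrincipalDivisors K G] [HasPrincipalDivisors K G₁] [HasPrincipalDivisors K F₁]

include hsq in
/-- **Base change on `Pic0`**: `i^* ∘ a_* = a'_* ∘ i₁^*` for a square `i₁ ∘ a = a' ∘ i` with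
norm compatibility. -/
theorem pullbackPic0Along_pushPic0
    (hfin : FiniteAlong K a) (hN : NormFormulaAlong K a hfin)
    (hfin' : FiniteAlong K a') (hN' : NormFormulaAlong K a' hfin')
    (hFIi : FundamentalIdentityAlong K i hi) (hFIi₁ : FundamentalIdentityAlong K i₁ hi₁)
    (hnorm : NormCompat a i a' i₁) (hLG : HasLocalGenerators a ha) (x : Pic0 K F₁) :
    pullbackPic0Along i hi hFIi (pushPic0 a ha hfin hN x) =
      pushPic0 a' ha' hfin' hN' (pullbackPic0Along i₁ hi₁ hFIi₁ x) := by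
  obtain ⟨D, rfl⟩ := Pic0.mk_surjective x
  rw [pushPic0_mk, pullbackPic0Along_mk, pullbackPic0Along_mk, pushPic0_mk]
  congr 1
  apply Subtype.ext
  simp only [coe_pullbackDegZeroAlong, coe_pushDegZero]
  exact pullback_pushforward_eq a i a' i₁ ha hi ha' hi₁ hsq hfin hN hfin' hN' hnorm hLG D

omit [HasPrincipalDivisors K G] [HasPrincipalDivisors K G₁] [HasPrincipalDivisors K F₁] in
/-- The degree of a finite map is nonzero. -/
theorem finrankAlong_ne_zero (hfin : FiniteAlong K i) : finrankAlong K i ≠ 0 := by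
  letI := algebraAlong i
  haveI : Module.Finite F G := hfin
  exact (Module.finrank_pos (R := F) (M := G)).ne'

end Generic

/-! ### Torsion arithmetic -/

/-- If `x` is killed by `p ^ n` and by `p ^ k * d`, `d ≠ 0`, it is killed by `p ^ (k + d)`. -/
theorem pow_nsmul_eq_zero_of_mul {A : Type*} [AddCommGroup A] {p : ℕ} (hp : p.Prime)
    {d : ℕ} (hd : d ≠ 0) {k n : ℕ} {x : A} (hn : p ^ n • x = 0) (hk : (p ^ k * d) • x = 0) :
    p ^ (k + d) • x = 0 := by
  have h1 : addOrderOf x ∣ p ^ n := addOrderOf_dvd_of_nsmul_eq_zero hn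
  have h2 : addOrderOf x ∣ p ^ k * d := addOrderOf_dvd_of_nsmul_eq_zero hk
  obtain ⟨j, -, hj⟩ := (Nat.dvd_prime_pow hp).mp h1
  rw [hj] at h2
  -- `p ^ j ∣ p ^ k * d` forces `j ≤ k + d`
  have hle : j ≤ k + d := by
    by_contra hlt
    rw [not_le] at hlt
    have h3 : p ^ (k + d) ∣ p ^ k * d :=
      (pow_dvd_pow p hlt.le).trans h2
    rw [pow_add] at h3
    have h4 : p ^ d ∣ d := Nat.dvd_of_mul_dvd_mul_left (pow_pos hp.pos k) h3
    have h5 : p ^ d ≤ d := Nat.le_of_dvd (Nat.pos_of_ne_zero hd) h4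
    exact absurd h5 (not_le.mpr (Nat.lt_pow_self hp.one_lt))
  have h6 : addOrderOf x ∣ p ^ (k + d) := by
    rw [hj]
    exact pow_dvd_pow p hle
  exact addOrderOf_dvd_iff_nsmul_eq_zero.mp h6

/-! ### The modular squares -/

section Modular

/-- `ℚ̄`. -/
local notation "Qbar" => AlgebraicClosure ℚ

section Retarget

variable {M ℓ M' : ℕ} [NeZero M] [NeZero ℓ] [NeZero M']

theorem betaTo_integral_bar (h : M * ℓ = M') : (betaTo Qbar M ℓ M' h).toRingHom.IsIntegral :=
  betaTo_integral Qbar h (H864.heckeBetaBarIntegral M ℓ)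

theorem betaTo_finite_bar (h : M * ℓ = M') : FiniteAlong Qbar (betaTo Qbar M ℓ M' h) :=
  betaTo_finite Qbar h (H864.finiteAlong_beta M ℓ)

theorem betaTo_normFormula_bar (h : M * ℓ = M') :
    NormFormulaAlong Qbar (betaTo Qbar M ℓ M' h) (betaTo_finite_bar h) :=
  betaTo_normFormula Qbar h (H864.finiteAlong_beta M ℓ) (H864.normFormulaAlong_beta M ℓ _)

theorem betaTo_fundamentalIdentity_bar (h : M * ℓ = M')
    [HasPrincipalDivisors Qbar ↥(modularFunctionFieldBar M')] :
    FundamentalIdentityAlong Qbar (betaTo Qbar M ℓ M' h) (betaTo_integral_bar h) :=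
  fundamentalIdentityAlong_of_normFormula _ _ (betaTo_finite_bar h) (betaTo_normFormula_bar h)

theorem intertwines_betaTo (h : M * ℓ = M') (σ : Qbar ≃ₐ[ℚ] Qbar) :
    SemilinearAut.IntertwinesAlong
      ((betaTo Qbar M ℓ M' h : FB Qbar M →ₐ[Qbar] FB Qbar M') : _ →+* _)
      (arithmeticGalois (modularFunctionFieldFull M) σ)
      (arithmeticGalois (modularFunctionFieldFull M') σ) := by
  subst h
  exact Fermat.Agent.S29.H571.intertwines_heckeBetaBar M ℓ σ

end Retarget

variable (N q r : ℕ) [NeZero N] [NeZero q] [NeZero r]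

/-- The pull-back `β_r^* : J₀(N) → J₀(N r)` along `V_r : f(z) ↦ f(r z)`. -/
def betaPull : JZero N →+ JZero (N * r) :=
  haveI := H864.hasPrincipalDivisors_FF (N * r)
  pullbackPic0Along (betaTo Qbar N r (N * r) rfl) (betaTo_integral_bar rfl)
    (betaTo_fundamentalIdentity_bar rfl)

/-- The pull-back `β_r^* : J₀(N q) → J₀(N r q)` (top level written as `N * r * q`). -/
def betaPullTop : JZero (N * q) →+ JZero (N * r * q) :=
  haveI := H864.hasPrincipalDivisors_FF (N * r * q)
  pullbackPic0Along (betaTo Qbar (N * q) r (N * r * q) (Nat.mul_right_comm N q r))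
    (betaTo_integral_bar _) (betaTo_fundamentalIdentity_bar _)

/-- `π^*` is Galois-equivariant. -/
theorem betaPullTop_smul (σ : Qbar ≃ₐ[ℚ] Qbar) (x : JZero (N * q)) :
    betaPullTop N q r (σ • x) = σ • betaPullTop N q r x := by
  haveI := H864.hasPrincipalDivisors_FF (N * r * q)
  rw [galois_smul_pic0_def, galois_smul_pic0_def]
  exact pullbackPic0Along_smul _ _ (intertwines_betaTo (Nat.mul_right_comm N q r) σ) _ x

/-- The degree of `π`. -/
def neatDegree : ℕ :=
  finrankAlong Qbar (betaTo Qbar (N * q) r (N * r * q) (Nat.mul_right_comm N q r))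

theorem neatDegree_ne_zero : neatDegree N q r ≠ 0 :=
  finrankAlong_ne_zero _ (betaTo_finite_bar _)

/-- `π^* x = 0 ⇒ deg π • x = 0`. -/
theorem nsmul_eq_zero_of_betaPullTop (x : JZero (N * q)) (hx : betaPullTop N q r x = 0) :
    neatDegree N q r • x = 0 := by
  haveI := H864.hasPrincipalDivisors_FF (N * r * q)
  exact nsmul_eq_zero_of_pullbackPic0Along_eq_zero _ _ (betaTo_finite_bar _)
    (betaTo_normFormula_bar _) (betaTo_fundamentalIdentity_bar _) x hx

/-- Norm compatibility of the `ββ`-square with top level `N * r * q`. -/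
theorem normCompat_beta_top (hq : q.Prime) (hr : r.Prime) (hne : r ≠ q)
    (M' : ℕ) [NeZero M'] (h₁ : N * r * q = M') (h₂ : N * q * r = M') :
    NormCompat (heckeBetaBar Qbar N q) (heckeBetaBar Qbar N r)
      (betaTo Qbar (N * r) q M' h₁) (betaTo Qbar (N * q) r M' h₂) := by
  subst h₂
  exact normCompat_beta_bar N q r hq hr hne

/-- **Base change, `α`**: `α_{q,*} ∘ π^* = β_r^* ∘ α_{q,*}`. -/
theorem alphaPush_betaPullTop (hq : q.Prime) (hr : r.Prime) (hne : r ≠ q) (x : JZero (N * q)) :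
    alphaPush (N * r) q (betaPullTop N q r x) = betaPull N r (alphaPush N q x) := by
  haveI := H864.hasPrincipalDivisors_FF (N * r * q)
  haveI := H864.hasPrincipalDivisors_FF (N * r)
  haveI := H864.hasPrincipalDivisors_FF (N * q)
  exact (pullbackPic0Along_pushPic0
    (heckeAlphaBar Qbar N q) (betaTo Qbar N r (N * r) rfl) (heckeAlphaBar Qbar (N * r) q)
    (betaTo Qbar (N * q) r (N * r * q) (Nat.mul_right_comm N q r))
    (H864.heckeAlphaBarIntegral N q) (betaTo_integral_bar rfl)
    (H864.heckeAlphaBarIntegral (N * r) q) (betaTo_integral_bar _)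
    (rel_sq₁ N r q)
    (H864.finiteAlong_alpha N q) (H864.normFormulaAlong_alpha N q _)
    (H864.finiteAlong_alpha (N * r) q) (H864.normFormulaAlong_alpha (N * r) q _)
    (betaTo_fundamentalIdentity_bar rfl) (betaTo_fundamentalIdentity_bar _)
    (normCompat_bar N r q hr hq hne)
    (hasLocalGenerators_of_hasPrincipalDivisors _ _) x).symm

/-- **Base change, `β`**: `β_{q,*} ∘ π^* = β_r^* ∘ β_{q,*}`. -/
theorem betaPush_betaPullTop (hq : q.Prime) (hr : r.Prime) (hne : r ≠ q) (x : JZero (N * q)) :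
    betaPush (N * r) q (betaPullTop N q r x) = betaPull N r (betaPush N q x) := by
  haveI := H864.hasPrincipalDivisors_FF (N * r * q)
  haveI := H864.hasPrincipalDivisors_FF (N * r)
  haveI := H864.hasPrincipalDivisors_FF (N * q)
  exact (pullbackPic0Along_pushPic0
    (heckeBetaBar Qbar N q) (betaTo Qbar N r (N * r) rfl) (betaTo Qbar (N * r) q (N * r * q) rfl)
    (betaTo Qbar (N * q) r (N * r * q) (Nat.mul_right_comm N q r))
    (H864.heckeBetaBarIntegral N q) (betaTo_integral_bar rfl)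
    (betaTo_integral_bar rfl) (betaTo_integral_bar _)
    (rel_BB N r q).symm
    (H864.finiteAlong_beta N q) (H864.normFormulaAlong_beta N q _)
    (betaTo_finite_bar rfl) (betaTo_normFormula_bar rfl)
    (betaTo_fundamentalIdentity_bar rfl) (betaTo_fundamentalIdentity_bar _)
    (normCompat_beta_top N q r hq hr hne (N * r * q) rfl (Nat.mul_right_comm N q r))
    (hasLocalGenerators_of_hasPrincipalDivisors _ _) x).symm

open Fermat.Agent.S35.H155 in
/-- `π^*` preserves `q`-new classes. -/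
theorem isQNew_betaPullTop (hq : q.Prime) (hr : r.Prime) (hne : r ≠ q) {x : JZero (N * q)}
    (hx : IsQNew N q x) : IsQNew (N * r) q (betaPullTop N q r x) := by
  refine ⟨?_, ?_⟩
  · rw [pushA_eq_alphaPush, alphaPush_betaPullTop N q r hq hr hne, ← pushA_eq_alphaPush, hx.1,
      map_zero]
  · rw [pushB_eq_betaPush, betaPush_betaPullTop N q r hq hr hne, ← pushB_eq_betaPush, hx.2,
      map_zero]

open Fermat.Agent.S35.H155 in
/-- **NEAT-LEVEL descent.**  A bound for the `H`-fixed `p`-power torsion of the `q`-new part at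
level `N r q` gives a bound at level `N q`. -/
theorem neat_descent (hq : q.Prime) (hr : r.Prime) (hne : r ≠ q) {p : ℕ} (hp : p.Prime)
    (H : Subgroup (Qbar ≃ₐ[ℚ] Qbar))
    (hneat : ∃ k : ℕ, ∀ x : JZero (N * r * q), (∃ n : ℕ, p ^ n • x = 0) →
      (∀ γ : Qbar ≃ₐ[ℚ] Qbar, IsQNew (N * r) q (γ • x)) →
      (∀ τ ∈ H, τ • x = x) → p ^ k • x = 0) :
    ∃ k : ℕ, ∀ x : JZero (N * q), (∃ n : ℕ, p ^ n • x = 0) →
      (∀ γ : Qbar ≃ₐ[ℚ] Qbar, IsQNew N q (γ • x)) →
      (∀ τ ∈ H, τ • x = x) → p ^ k • x = 0 := by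
  obtain ⟨k, hk⟩ := hneat
  refine ⟨k + neatDegree N q r, fun x ⟨n, hn⟩ hnew hfix => ?_⟩
  have h1 : p ^ k • betaPullTop N q r x = 0 := by
    refine hk _ ⟨n, ?_⟩ (fun γ => ?_) (fun τ hτ => ?_)
    · rw [← map_nsmul, hn, map_zero]
    · rw [← betaPullTop_smul]
      exact isQNew_betaPullTop N q r hq hr hne (hnew γ)
    · rw [← betaPullTop_smul, hfix τ hτ]
  have h2 : neatDegree N q r • (p ^ k • x) = 0 := by
    apply nsmul_eq_zero_of_betaPullTop
    rw [map_nsmul, h1]
  refine pow_nsmul_eq_zero_of_mul hp (neatDegree_ne_zero N q r) hn ?_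
  rw [mul_nsmul]
  exact h2

end Modular

end Fermat.Agent.S36.H442

end
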