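/-
S36 / cell NEAT-LEVEL (helper442), statement level: the engine on `J₀(N q)` (helper36's
`QNewInertiaStatement`, `origin/helper36:Fermat/Agent/S36/H36/Deg.lean`) follows from the engine
at the NEAT levels `N r q`, `r ≡ 11 mod 12` prime, `r ∤ N q p`, `r > B(N, q, p)` for any bound.

* `QNewInertiaAt N q p P`     : the engine at ONE level (the body of `QNewInertiaStatement`);
* `qNewInertiaAt_of_mul`      : `QNewInertiaAt (N * r) q p P → QNewInertiaAt N q p P`, `r ≠ q`;
* `exists_neat_prime`         : Dirichlet, primes `≡ 11 mod 12` above any bound;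
* `QNewInertiaNeatStatement`  : the engine at neat levels;
* `qNewInertia_of_neat`       : `QNewInertiaNeatStatement → ` (the body of)
                                `H36.QNewInertiaStatement`, verbatim.
-/
import Fermat.Agent.S36.H442.Neat
import Fermat.Prelude.Def_FLTPrelim_Ramification

set_option autoImplicit false
set_option linter.style.haveILetI false

noncomputable section

namespace Fermat.Agent.S36.H442

open ModularCurve Fermat.Agent.S35.H155

/-- **The engine at one level**: the `I_P`-fixed `p`-power torsion of the `q`-new part of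
`J₀(N q)` is killed by some `p ^ k`. -/
def QNewInertiaAt (N q p : ℕ) [NeZero N] [NeZero q]
    (P : ValuationSubring (AlgebraicClosure ℚ)) : Prop :=
  ∃ k : ℕ, ∀ x : JZero (N * q), (∃ n : ℕ, p ^ n • x = 0) → IsQNew N q x →
    (∀ τ ∈ P.inertiaSubgroupIn ℚ, τ • x = x) → p ^ k • x = 0

/-- **NEAT-LEVEL descent, one step**: the engine at level `N r q` gives the engine at level
`N q`, for any prime `r ≠ q`. -/
theorem qNewInertiaAt_of_mul (N q r p : ℕ) [NeZero N] [NeZero q] [NeZero r] (hq : q.Prime)
    (hr : r.Prime) (hne : r ≠ q) (hp : p.Prime) (P : ValuationSubring (AlgebraicClosure ℚ))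
    (h : QNewInertiaAt (N * r) q p P) : QNewInertiaAt N q p P := by
  obtain ⟨k, hk⟩ := h
  obtain ⟨k', hk'⟩ := neat_descent N q r hq hr hne hp (P.inertiaSubgroupIn ℚ)
    ⟨k, fun x hx hnew hfix => hk x hx (by simpa using hnew 1) hfix⟩
  exact ⟨k', fun x hx hnew hfix => hk' x hx (fun γ => hnew.galois γ) hfix⟩

/-- Dirichlet: there are primes `r ≡ 11 mod 12` above any bound. -/
theorem exists_neat_prime (B : ℕ) : ∃ r : ℕ, B < r ∧ r.Prime ∧ r % 12 = 11 := by
  obtain ⟨r, hB, hr, hmod⟩ :=
    Nat.forall_exists_prime_gt_and_modEq B (q := 12) (a := 11) (by norm_num) (by norm_num)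
  exact ⟨r, hB, hr, hmod⟩

/-- **The engine at neat levels**: level `N r q` with `q ‖ N`, `r ≡ 11 mod 12` a prime not
dividing `N q p` and larger than `N q p`. -/
def QNewInertiaNeatStatement : Prop :=
  ∀ (N q r p : ℕ) [NeZero N] [NeZero q] [NeZero r], q.Prime → N.factorization q = 1 →
    r.Prime → r % 12 = 11 → ¬ r ∣ N * q * p → N * q * p < r → p.Prime → p ≠ q →
    ∀ P : ValuationSubring (AlgebraicClosure ℚ), P.LiesOverPrime q →
      (N * r).factorization q = 1 → QNewInertiaAt (N * r) q p P

/-- `q ‖ N`, `r ≠ q` prime  ⟹  `q ‖ N r`. -/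
theorem factorization_mul_prime_eq_one {N q r : ℕ} (hN : N ≠ 0) (hr : r.Prime) (hne : r ≠ q)
    (h : N.factorization q = 1) : (N * r).factorization q = 1 := by
  rw [Nat.factorization_mul hN hr.ne_zero, Finsupp.add_apply, h, hr.factorization,
    Finsupp.single_eq_of_ne hne.symm, add_zero]

/-- **NEAT-LEVEL wrapper.**  The engine at neat levels implies the engine at all levels
(the conclusion is the body of helper36's `QNewInertiaStatement`). -/
theorem qNewInertia_of_neat (h : QNewInertiaNeatStatement) :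
    ∀ (N q p : ℕ) [NeZero N] [NeZero q], q.Prime → N.factorization q = 1 → p.Prime → p ≠ q →
      ∀ P : ValuationSubring (AlgebraicClosure ℚ), P.LiesOverPrime q →
        ∃ k : ℕ, ∀ x : JZero (N * q), (∃ n : ℕ, p ^ n • x = 0) → IsQNew N q x →
          (∀ τ ∈ P.inertiaSubgroupIn ℚ, τ • x = x) → p ^ k • x = 0 := by
  intro N q p _ _ hq hfac hp hpq P hP
  obtain ⟨r, hB, hr, hmod⟩ := exists_neat_prime (N * q * p)
  haveI : NeZero r := ⟨hr.ne_zero⟩
  have hpos : 0 < N * q * p :=
    Nat.mul_pos (Nat.mul_pos (Nat.pos_of_ne_zero (NeZero.ne N)) hq.pos) hp.pos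
  have hndvd : ¬ r ∣ N * q * p := fun hd => absurd (Nat.le_of_dvd hpos hd) (not_le.mpr hB)
  have hne : r ≠ q := by
    rintro rfl
    exact hndvd ((Dvd.intro_left N rfl).mul_right p)
  exact qNewInertiaAt_of_mul N q r p hq hr hne hp P
    (h N q r p hq hfac hr hmod hndvd hB hp hpq P hP
      (factorization_mul_prime_eq_one (NeZero.ne N) hr hne hfac))

end Fermat.Agent.S36.H442

end
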